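import Mathlib
import Fermat.Agent.S05.RankOne

/-!
# GATE-J / J1 VAL (d) (helper91): a valuation subring of an algebraic extension of `ℚ` lying over a
prime has rank one (archimedean value group), from T05's `ℚ`-valued valuation `qvalOfSubring`.

* `exists_pow_valuation_le` : `x ∈ A`, `v x < 1`, `c ≠ 0` ⟹ `∃ n, v (x ^ n) ≤ v c`;
* `exists_pow_div_mem` : the same as `x ^ n / c ∈ A`;
* `exists_pow_dvd` : for `x c : A`, `x` a nonunit, `c ≠ 0` ⟹ `∃ n, c ∣ x ^ n` in `A`.
-/

set_option autoImplicit false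

namespace Fermat.Agent.GJ.AuxL.RankOneA

open Fermat.Agent.S05 Fermat.Agent.S05.RankOne

variable {K : Type*} [Field K] [Algebra ℚ K] [Algebra.IsAlgebraic ℚ K]
  (A : ValuationSubring K) {q : ℕ} (hq : q.Prime) (hA : A.LiesOverPrime q)

include hq hA in
/-- Rank one: powers of a non-unit of `A` become smaller than any nonzero element. -/
theorem exists_pow_valuation_le {x c : K} (hx : A.valuation x < 1) (hc : c ≠ 0) :
    ∃ n : ℕ, A.valuation (x ^ n) ≤ A.valuation c := by
  by_cases hx0 : x = 0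
  · exact ⟨1, by simp [hx0]⟩
  set ν := qvalOfSubring A hq hA with hν
  have hpos : 0 < ν.v x := by
    rw [qvalOfSubring_pos_iff A hq hA hx0, ValuationSubring.mem_nonunits_iff]
    exact hx
  obtain ⟨n, hn⟩ := exists_nat_ge (ν.v c / ν.v x)
  refine ⟨n, ?_⟩
  rw [← qvalOfSubring_le_iff A hq hA hc (pow_ne_zero n hx0), ← hν, ν.map_pow hx0]
  calc ν.v c = ν.v c / ν.v x * ν.v x := by field_simp
    _ ≤ (n : ℚ) * ν.v x := mul_le_mul_of_nonneg_right hn hpos.le

include hq hA in
theorem exists_pow_div_mem {x c : K} (hx : A.valuation x < 1) (hc : c ≠ 0) :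
    ∃ n : ℕ, x ^ n / c ∈ A := by
  obtain ⟨n, hn⟩ := exists_pow_valuation_le A hq hA hx hc
  refine ⟨n, ?_⟩
  rw [← ValuationSubring.valuation_le_one_iff, map_div₀]
  have hvc : A.valuation c ≠ 0 := (Valuation.ne_zero_iff _).2 hc
  exact div_le_one_of_le₀ hn zero_le

include hq hA in
/-- Rank one, divisibility form inside `A`. -/
theorem exists_pow_dvd {x c : A} (hx : (x : K) ∈ A.nonunits) (hc : c ≠ 0) :
    ∃ n : ℕ, c ∣ x ^ n := by
  have hcK : (c : K) ≠ 0 := fun h => hc (Subtype.ext h)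
  obtain ⟨n, hn⟩ := exists_pow_div_mem A hq hA ((ValuationSubring.mem_nonunits_iff A).1 hx) hcK
  refine ⟨n, ⟨⟨(x : K) ^ n / (c : K), hn⟩, ?_⟩⟩
  apply Subtype.ext
  push_cast
  field_simp

end Fermat.Agent.GJ.AuxL.RankOneA
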