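/-
GATE-J / J1 / M-layer, M-CHART (helper46): the concrete charts of the auxiliary-level design as
ELEMENTS of the function field `FN N = ↥(modularFunctionFieldBar N)` of S24.

* `M = 1` : `t = jF N`,                      `β = 1728`;
* `M = 2` : `t = tTwoF N h`   (`2 ∣ N`),    `β = -64`,  `j t² = (t+256)³`;
* `M = 3` : `t = tThreeF N h` (`3 ∣ N`),    `β = -27`,  `j t³ = (t+27)(t+243)³`.

In all three cases (UNIFORM statement `chart*_branch`): for every place `v` of `F_N` and every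
`c ≠ 0, β` with `0 < v.ord (t - c)` one has `v.ord (t - c) = 1`, i.e. `F_N / ℚ̄(t)` is unramified
outside `t ∈ {0, β, ∞}`; `t` is transcendental and `F_N / ℚ̄(t)` is finite.

Glue on top of helper32's `GJ/J1/Haupt` (the Hauptmoduln as `q`-series + membership), helper76's
`GJ/AuxLevel/Branch` (branch data from a relation) and T24 (`m9`).
-/
import Fermat.Agent.GJ.AuxLevel.Branch
import Fermat.Agent.GJ.J1.Haupt.Mem
import Fermat.Agent.S24_helper62.CuspFibre
import Fermat.Agent.GJ.J1.DescDegree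
import Fermat.Agent.GJ.J1.Haupt.Inst
import Fermat.Agent.GJ.J1.DifferentBranch

set_option autoImplicit false

noncomputable section

namespace Fermat.Agent.GJ.AuxL

open AlgebraicCurve ModularCurve IntermediateField
open Fermat.Agent.S24 Fermat.Agent.GJ.J1.Haupt

variable (N : ℕ) [NeZero N]

local notation "ι" => algebraMap Kbar (FN N)

/-- the series of `jF N` is the prelude's `jqModC ℚ̄` -/
theorem coe_jF_eq : ((jF N : FN N) : LaurentSeries Kbar) = jqModC Kbar := by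
  rw [coe_jF, Fermat.Agent.S24_helper62.coeffEmb_jq]

/-- `t₂` as an element of the function field of `X₀(N)`, `2 ∣ N`
(= helper32's `GJ.J1.Haupt.tTwoF`, reducibly). -/
abbrev tTwoF (h : 2 ∣ N) : FN N := Fermat.Agent.GJ.J1.Haupt.tTwoF N h

/-- `t₃` as an element of the function field of `X₀(N)`, `3 ∣ N`
(= helper32's `GJ.J1.Haupt.tThreeF`, reducibly). -/
abbrev tThreeF (h : 3 ∣ N) : FN N := Fermat.Agent.GJ.J1.Haupt.tThreeF N h

theorem coe_tTwoF (h : 2 ∣ N) : ((tTwoF N h : FN N) : LaurentSeries Kbar) = tTwo Kbar := rfl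

theorem coe_tThreeF (h : 3 ∣ N) :
    ((tThreeF N h : FN N) : LaurentSeries Kbar) = tThree Kbar := rfl

/-- `j · t₂² = (t₂ + 256)³` in `F_N`. -/
theorem tTwoF_rel (h : 2 ∣ N) : jF N * tTwoF N h ^ 2 = (tTwoF N h + 256) ^ 3 :=
  jF_mul_tTwoF_sq N h

/-- `j · t₃³ = (t₃ + 27)(t₃ + 243)³` in `F_N`. -/
theorem tThreeF_rel (h : 3 ∣ N) :
    jF N * tThreeF N h ^ 3 = (tThreeF N h + 27) * (tThreeF N h + 243) ^ 3 :=
  jF_mul_tThreeF_cube N h

/-! ### Transcendence and finiteness from the relation -/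

section Rel

variable {N}

/-- an element `t` of `F_N` with `j` algebraic over `ℚ̄(t)`-style relation is transcendental:
generic form, `j * a = b` with `a, b ∈ ℚ̄[t]`, `a ≠ 0`. -/
theorem transcendental_of_mul_eq {t a b : FN N} (ha : a ≠ 0)
    (hat : IsAlgebraic Kbar t → IsAlgebraic Kbar a) (hbt : IsAlgebraic Kbar t → IsAlgebraic Kbar b)
    (hj : jF N * a = b) : Transcendental Kbar t := by
  intro halg
  apply Fermat.Agent.S24_helper62.isGen_jF (N := N) |>.transcendental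
  have h1 : jF N = b / a := by rw [eq_div_iff ha, hj]
  rw [h1, div_eq_mul_inv]
  exact (hbt halg).mul (hat halg).inv

theorem isAlgebraic_ofNat' (n : ℕ) [n.AtLeastTwo] :
    IsAlgebraic Kbar (OfNat.ofNat n : FN N) := by
  rw [← map_ofNat (algebraMap Kbar (FN N)) n]
  exact isAlgebraic_algebraMap _

theorem ofNat_mem_adjoin (t : FN N) (n : ℕ) [n.AtLeastTwo] : (OfNat.ofNat n : FN N) ∈ Kbar⟮t⟯ := by
  rw [← map_ofNat (algebraMap Kbar (FN N)) n]
  exact (Kbar⟮t⟯).algebraMap_mem _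

theorem transcendental_of_rel_two {t : FN N} (hj : jF N * t ^ 2 = (t + 256) ^ 3) :
    Transcendental Kbar t := by
  have ht0 : t ≠ 0 := Fermat.Agent.GJ.Aux.two_t_ne_zero hj
  refine transcendental_of_mul_eq (pow_ne_zero 2 ht0) (fun h => h.pow 2) (fun h => ?_) hj
  exact (h.add (isAlgebraic_ofNat' 256)).pow 3

theorem transcendental_of_rel_three {t : FN N}
    (hj : jF N * t ^ 3 = (t + 27) * (t + 243) ^ 3) : Transcendental Kbar t := by
  have ht0 : t ≠ 0 := Fermat.Agent.GJ.Aux.three_t_ne_zero hj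
  refine transcendental_of_mul_eq (pow_ne_zero 3 ht0) (fun h => h.pow 3) (fun h => ?_) hj
  exact (h.add (isAlgebraic_ofNat' 27)).mul ((h.add (isAlgebraic_ofNat' 243)).pow 3)

/-- every transcendental element of `F_N` is a generator: `F_N / ℚ̄(t)` is finite. -/
theorem isGen_of_transcendental {t : FN N} (ht : Transcendental Kbar t) : IsGen Kbar t :=
  haveI := Fermat.Agent.S24_helper62.isGen_jF (N := N)
  IsGen.of_transcendental (jF N) ht

/-- `ℚ̄(j) ≤ ℚ̄(t)` from the level-2 relation. -/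
theorem adjoin_jF_le_of_rel_two {t : FN N} (hj : jF N * t ^ 2 = (t + 256) ^ 3) :
    Kbar⟮jF N⟯ ≤ Kbar⟮t⟯ := by
  have ht0 : t ≠ 0 := Fermat.Agent.GJ.Aux.two_t_ne_zero hj
  rw [adjoin_simple_le_iff]
  have h1 : jF N = (t + 256) ^ 3 / t ^ 2 := by rw [eq_div_iff (pow_ne_zero 2 ht0), hj]
  rw [h1]
  have ht : t ∈ Kbar⟮t⟯ := mem_adjoin_simple_self Kbar t
  exact div_mem (pow_mem (add_mem ht (ofNat_mem_adjoin t 256)) 3) (pow_mem ht 2)

/-- `ℚ̄(j) ≤ ℚ̄(t)` from the level-3 relation. -/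
theorem adjoin_jF_le_of_rel_three {t : FN N}
    (hj : jF N * t ^ 3 = (t + 27) * (t + 243) ^ 3) : Kbar⟮jF N⟯ ≤ Kbar⟮t⟯ := by
  have ht0 : t ≠ 0 := Fermat.Agent.GJ.Aux.three_t_ne_zero hj
  rw [adjoin_simple_le_iff]
  have h1 : jF N = (t + 27) * (t + 243) ^ 3 / t ^ 3 := by
    rw [eq_div_iff (pow_ne_zero 3 ht0), hj]
  rw [h1]
  have ht : t ∈ Kbar⟮t⟯ := mem_adjoin_simple_self Kbar t
  exact div_mem (mul_mem (add_mem ht (ofNat_mem_adjoin t 27))
    (pow_mem (add_mem ht (ofNat_mem_adjoin t 243)) 3)) (pow_mem ht 3)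

end Rel

/-! ### The three charts: uniform statements -/

/-- the third branch value: `1728`, `-64`, `-27` for `M = 1, 2, 3`. -/
def beta : ℕ → Kbar
  | 2 => -64
  | 3 => -27
  | _ => 1728

@[simp] theorem beta_one : beta 1 = 1728 := rfl
@[simp] theorem beta_two : beta 2 = -64 := rfl
@[simp] theorem beta_three : beta 3 = -27 := rfl

/-- **M = 1**: `F_N / ℚ̄(j)` is unramified outside `j ∈ {0, 1728, ∞}`. -/
theorem chartOne_branch (v : Place Kbar (FN N)) (c : Kbar) (hc0 : c ≠ 0) (hcb : c ≠ beta 1)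
    (h : 0 < v.ord (jF N - ι c)) : v.ord (jF N - ι c) = 1 :=
  Fermat.Agent.GJ.Aux.ord_jF_sub_eq_one N hc0 hcb v h

/-- **M = 2**: `F_N / ℚ̄(t₂)` is unramified outside `t₂ ∈ {0, -64, ∞}`. -/
theorem chartTwo_branch (h2 : 2 ∣ N) (v : Place Kbar (FN N)) (c : Kbar) (hc0 : c ≠ 0)
    (hcb : c ≠ beta 2) (h : 0 < v.ord (tTwoF N h2 - ι c)) : v.ord (tTwoF N h2 - ι c) = 1 :=
  Fermat.Agent.GJ.Aux.unramified_of_ne_two (tTwoF_rel N h2) v c hc0 hcb h

/-- **M = 3**: `F_N / ℚ̄(t₃)` is unramified outside `t₃ ∈ {0, -27, ∞}`. -/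
theorem chartThree_branch (h3 : 3 ∣ N) (v : Place Kbar (FN N)) (c : Kbar) (hc0 : c ≠ 0)
    (hcb : c ≠ beta 3) (h : 0 < v.ord (tThreeF N h3 - ι c)) : v.ord (tThreeF N h3 - ι c) = 1 :=
  Fermat.Agent.GJ.Aux.unramified_of_ne_three (tThreeF_rel N h3) v c hc0 hcb h

/-- at `β = -64` the ramification index divides `2` -/
theorem chartTwo_beta (h2 : 2 ∣ N) (v : Place Kbar (FN N))
    (h : 0 < v.ord (tTwoF N h2 - ι (-64))) : v.ord (tTwoF N h2 - ι (-64)) ∣ 2 :=
  Fermat.Agent.GJ.Aux.ord_beta_dvd_two (tTwoF_rel N h2) v h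

/-- at `β = -27` the ramification index divides `3` -/
theorem chartThree_beta (h3 : 3 ∣ N) (v : Place Kbar (FN N))
    (h : 0 < v.ord (tThreeF N h3 - ι (-27))) : v.ord (tThreeF N h3 - ι (-27)) ∣ 3 :=
  Fermat.Agent.GJ.Aux.ord_beta_dvd_three (tThreeF_rel N h3) v h

theorem finiteDimensional_tTwoF (h2 : 2 ∣ N) : FiniteDimensional Kbar⟮tTwoF N h2⟯ (FN N) :=
  (isGen_tTwoF N h2).finite

theorem finiteDimensional_tThreeF (h3 : 3 ∣ N) :
    FiniteDimensional Kbar⟮tThreeF N h3⟯ (FN N) :=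
  (isGen_tThreeF N h3).finite

theorem finiteDimensional_jF : FiniteDimensional Kbar⟮jF N⟯ (FN N) :=
  (Fermat.Agent.S24_helper62.isGen_jF (N := N)).finite

/-! ### The branch data in helper15's `PlaceBranch` form, `f0 = X * (X - C β)` -/

open Polynomial in
theorem eval_ne_zero_iff (β c : Kbar) :
    (X * (X - C β) : Kbar[X]).eval c ≠ 0 ↔ c ≠ 0 ∧ c ≠ β := by
  simp [sub_eq_zero, not_or]

open Polynomial in
/-- **M = 1** -/
theorem placeBranch_jF :
    Fermat.Agent.GJ.J1.DiffAdapter.PlaceBranch Kbar (jF N) (X * (X - C (1728 : Kbar))) := by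
  intro v c hc hpos
  rw [eval_ne_zero_iff] at hc
  exact chartOne_branch N v c hc.1 hc.2 hpos

open Polynomial in
/-- **M = 2** -/
theorem placeBranch_tTwoF (h2 : 2 ∣ N) :
    Fermat.Agent.GJ.J1.DiffAdapter.PlaceBranch Kbar (tTwoF N h2) (X * (X - C (-64 : Kbar))) := by
  intro v c hc hpos
  rw [eval_ne_zero_iff] at hc
  exact chartTwo_branch N h2 v c hc.1 hc.2 hpos

open Polynomial in
/-- **M = 3** -/
theorem placeBranch_tThreeF (h3 : 3 ∣ N) :
    Fermat.Agent.GJ.J1.DiffAdapter.PlaceBranch Kbar (tThreeF N h3) (X * (X - C (-27 : Kbar))) := by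
  intro v c hc hpos
  rw [eval_ne_zero_iff] at hc
  exact chartThree_branch N h3 v c hc.1 hc.2 hpos

/-! ### Degrees over `ℚ̄(t)` : `ℚ̄(t_M) = F_M`, so `ψ(M) · [F_N : ℚ̄(t_M)] = ψ(N)` -/

theorem comap_level_two (h2 : 2 ∣ N) :
    (modularFunctionFieldBar 2).comap (modularFunctionFieldBar N).val = Kbar⟮tTwoF N h2⟯ := by
  have h1 : (Kbar⟮tTwoF N h2⟯).map (modularFunctionFieldBar N).val = modularFunctionFieldBar 2 := by
    rw [adjoin_map, Set.image_singleton]
    show Kbar⟮tTwo Kbar⟯ = _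
    rw [adjoin_tTwo, Fermat.Agent.S24_helper62.modularFunctionFieldBar_eq]
  rw [← h1, comap_map]

theorem comap_level_three (h3 : 3 ∣ N) :
    (modularFunctionFieldBar 3).comap (modularFunctionFieldBar N).val = Kbar⟮tThreeF N h3⟯ := by
  have h1 : (Kbar⟮tThreeF N h3⟯).map (modularFunctionFieldBar N).val =
      modularFunctionFieldBar 3 := by
    rw [adjoin_map, Set.image_singleton]
    show Kbar⟮tThree Kbar⟯ = _
    rw [adjoin_tThree, Fermat.Agent.S24_helper62.modularFunctionFieldBar_eq]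
  rw [← h1, comap_map]

/-- `ψ(2) · [F_N : ℚ̄(t₂)] = ψ(N)`. -/
theorem dedekindPsi_two_mul_finrank (h2 : 2 ∣ N) :
    dedekindPsi 2 * Module.finrank Kbar⟮tTwoF N h2⟯ (FN N) = dedekindPsi N := by
  have h := finrank_comap (modularFunctionFieldBar 2) (modularFunctionFieldBar N).val
  rw [fieldRange_val, comap_level_two N h2] at h
  rw [h]
  exact Fermat.Agent.GJ.J1.Desc.dedekindPsi_mul_relfinrank h2

/-- `ψ(3) · [F_N : ℚ̄(t₃)] = ψ(N)`. -/
theorem dedekindPsi_three_mul_finrank (h3 : 3 ∣ N) :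
    dedekindPsi 3 * Module.finrank Kbar⟮tThreeF N h3⟯ (FN N) = dedekindPsi N := by
  have h := finrank_comap (modularFunctionFieldBar 3) (modularFunctionFieldBar N).val
  rw [fieldRange_val, comap_level_three N h3] at h
  rw [h]
  exact Fermat.Agent.GJ.J1.Desc.dedekindPsi_mul_relfinrank h3

/-! ### Integrality and reduction of the charts (every valuation subring `A` of `ℚ̄`) -/

section Integral

variable (A : ValuationSubring Kbar)

theorem coe_jF_eq_coeffMap :
    ((jF N : FN N) : LaurentSeries Kbar) = coeffMap A.subtype (jqModC A) := by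
  rw [coe_jF_eq, coeffMap_jqModC]

theorem coe_tTwoF_eq_coeffMap (h2 : 2 ∣ N) :
    ((tTwoF N h2 : FN N) : LaurentSeries Kbar) = coeffMap A.subtype (tTwo A) := by
  rw [coe_tTwoF, coeffMap_tTwo]

theorem coe_tThreeF_eq_coeffMap (h3 : 3 ∣ N) :
    ((tThreeF N h3 : FN N) : LaurentSeries Kbar) = coeffMap A.subtype (tThree A) := by
  rw [coe_tThreeF, coeffMap_tThree]

theorem coeffMap_residue_jq :
    coeffMap (IsLocalRing.residue A) (jqModC A) = jqModC (IsLocalRing.ResidueField A) :=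
  coeffMap_jqModC _

theorem coeffMap_residue_tTwo :
    coeffMap (IsLocalRing.residue A) (tTwo A) = tTwo (IsLocalRing.ResidueField A) :=
  coeffMap_tTwo _

theorem coeffMap_residue_tThree :
    coeffMap (IsLocalRing.residue A) (tThree A) = tThree (IsLocalRing.ResidueField A) :=
  coeffMap_tThree _

end Integral

end Fermat.Agent.GJ.AuxL
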