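import Mathlib
import Fermat.Agent.S05.RankOne

/-!
# GATE-J / J1-AUX, AUX-GAUSS(a), file 1 (helper91): discreteness of the `ℚ`-valued valuation
on finite extensions of `ℚ`

`K` algebraic over `ℚ`, `A` a valuation subring of `K` over the prime `q`,
`ν := qvalOfSubring A hq hA` (T05).  No Dedekind domains, no localisation:

* `exists_int_v_algebraMap` : `ν` of a nonzero rational is an integer;
* `exists_mul_eq_int_of_aeval` : a nonzero root of a nonzero `p : ℚ[X]` satisfies
  `d * ν x ∈ ℤ` for some `1 ≤ d ≤ natDegree p`;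
* `exists_factorial_mul_eq_int` : for `x ≠ 0` in a finite-dimensional `E`,
  `(finrank ℚ E)! * ν x ∈ ℤ`.
-/

set_option autoImplicit false

namespace Fermat.Agent.GJ.AuxL.GaussNorm

open Fermat.Agent.S05 Fermat.Agent.S05.RankOne Polynomial IntermediateField

variable {K : Type*} [Field K] [Algebra ℚ K] [Algebra.IsAlgebraic ℚ K]
  (A : ValuationSubring K) {q : ℕ} (hq : q.Prime) (hA : A.LiesOverPrime q)

/-- `ν` of a nonzero rational number is an integer. -/
theorem exists_int_v_algebraMap {c : ℚ} (hc : c ≠ 0) :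
    ∃ k : ℤ, (qvalOfSubring A hq hA).v (algebraMap ℚ K c) = k := by
  have : CharZero K := algebraRat.charZero K
  have hnum : c.num ≠ 0 := Rat.num_ne_zero.2 hc
  have hden : c.den ≠ 0 := c.den_ne_zero
  have hcast : algebraMap ℚ K c = (c.num : K) / (c.den : K) := by
    conv_lhs => rw [← Rat.num_div_den c]
    rw [map_div₀, map_intCast, map_natCast]
  refine ⟨padicValInt q c.num - padicValNat q c.den, ?_⟩
  rw [hcast, (qvalOfSubring A hq hA).map_div (Int.cast_ne_zero.2 hnum) (Nat.cast_ne_zero.2 hden),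
    qvalOfSubring_intCast A hq hA hnum, qvalOfSubring_natCast A hq hA hden]
  simp

/-- Degree-bounded commensurability: a nonzero root `x` of a nonzero rational polynomial `p`
has `d * ν x ∈ ℤ` for some `1 ≤ d ≤ natDegree p`. -/
theorem exists_mul_eq_int_of_aeval {x : K} (hx : x ≠ 0) {p : ℚ[X]} (hp : p ≠ 0)
    (hpx : aeval x p = 0) :
    ∃ d : ℕ, 0 < d ∧ d ≤ p.natDegree ∧ ∃ k : ℤ, (d : ℚ) * (qvalOfSubring A hq hA).v x = k := by
  set ν := qvalOfSubring A hq hA with hν
  rw [aeval_def, eval₂_eq_sum, sum_def] at hpx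
  have hterm : ∀ i ∈ p.support, (algebraMap ℚ K) (p.coeff i) * x ^ i ≠ 0 := by
    intro i hi
    refine mul_ne_zero ?_ (pow_ne_zero i hx)
    rw [Ne, map_eq_zero]
    exact mem_support_iff.1 hi
  obtain ⟨i₀, hi₀⟩ := nonempty_support_iff.2 hp
  obtain ⟨i, hi, j, hj, hij, hfi, hfj, hv⟩ :=
    exists_ne_map_eq_of_sum_eq_zero A.valuation p.support
      (fun i => (algebraMap ℚ K) (p.coeff i) * x ^ i) ⟨i₀, hi₀, hterm i₀ hi₀⟩ hpx
  have hci : (algebraMap ℚ K) (p.coeff i) ≠ 0 := left_ne_zero_of_mul hfi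
  have hcj : (algebraMap ℚ K) (p.coeff j) ≠ 0 := left_ne_zero_of_mul hfj
  have hνeq : ν.v ((algebraMap ℚ K) (p.coeff i) * x ^ i)
      = ν.v ((algebraMap ℚ K) (p.coeff j) * x ^ j) :=
    (qvalOfSubring_eq_iff A hq hA hfi hfj).2 hv
  rw [ν.map_mul hci (pow_ne_zero i hx), ν.map_mul hcj (pow_ne_zero j hx), ν.map_pow hx,
    ν.map_pow hx] at hνeq
  obtain ⟨ki, hki⟩ := exists_int_v_algebraMap A hq hA (mem_support_iff.1 hi)
  obtain ⟨kj, hkj⟩ := exists_int_v_algebraMap A hq hA (mem_support_iff.1 hj)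
  rw [← hν] at hki hkj
  rw [hki, hkj] at hνeq
  have hile : i ≤ p.natDegree := le_natDegree_of_mem_supp i hi
  have hjle : j ≤ p.natDegree := le_natDegree_of_mem_supp j hj
  rcases lt_or_gt_of_ne hij with hlt | hlt
  · refine ⟨j - i, Nat.sub_pos_of_lt hlt, (Nat.sub_le j i).trans hjle, ki - kj, ?_⟩
    rw [Nat.cast_sub hlt.le]
    push_cast
    linarith
  · refine ⟨i - j, Nat.sub_pos_of_lt hlt, (Nat.sub_le i j).trans hile, kj - ki, ?_⟩
    rw [Nat.cast_sub hlt.le]
    push_cast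
    linarith

/-- Discreteness on a finite-dimensional subextension: `(finrank ℚ E)! * ν x ∈ ℤ`. -/
theorem exists_factorial_mul_eq_int (E : IntermediateField ℚ K) [FiniteDimensional ℚ E]
    {x : K} (hxE : x ∈ E) (hx : x ≠ 0) :
    ∃ k : ℤ, ((Module.finrank ℚ E).factorial : ℚ) * (qvalOfSubring A hq hA).v x = k := by
  have hxint : IsIntegral ℚ x := (Algebra.IsAlgebraic.isAlgebraic x).isIntegral
  have hdeg : (minpoly ℚ x).natDegree ≤ Module.finrank ℚ E := by
    have h1 : ℚ⟮x⟯ ≤ E := IntermediateField.adjoin_simple_le_iff.2 hxE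
    rw [← IntermediateField.adjoin.finrank hxint]
    exact IntermediateField.finrank_le_of_le_right h1
  obtain ⟨d, hd0, hdle, k, hk⟩ := exists_mul_eq_int_of_aeval A hq hA hx (minpoly.ne_zero hxint)
    (minpoly.aeval ℚ x)
  have hdvd : d ∣ (Module.finrank ℚ E).factorial :=
    Nat.dvd_factorial hd0 (hdle.trans hdeg)
  obtain ⟨e, he⟩ := hdvd
  refine ⟨e * k, ?_⟩
  rw [he]
  push_cast
  rw [← hk]
  ring

end Fermat.Agent.GJ.AuxL.GaussNorm
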