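import Mathlib
import Fermat.Prelude.Def_ModularCurve_LaurentCoeff
import Fermat.Agent.GJ.AuxL.GaussDisc

/-!
# GATE-J / J1-AUX, AUX-GAUSS(a), file 2 (helper91): the Gauss norm of a bounded Laurent series
with coefficients in a number field is attained

* `liftA` : a Laurent series over `K` all of whose coefficients lie in `A`, as a series over `A`;
* `Bdd` : the coefficients have `ν` bounded below;
* `exists_min_coeff` : for `x ≠ 0` bounded with all coefficients in a finite-dimensional `E`, some
  coefficient has minimal valuation;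
* `exists_normalized` : then `C c * x` comes from `LaurentSeries A` and has a coefficient `1`.
-/

set_option autoImplicit false

noncomputable section

namespace Fermat.Agent.GJ.AuxL.GaussNorm

open Fermat.Agent.S05 Fermat.Agent.S05.RankOne ModularCurve

variable {K : Type*} [Field K]

/-- A Laurent series all of whose coefficients lie in the valuation subring `A`, as a Laurent
series over `A`. -/
def liftA (A : ValuationSubring K) (x : LaurentSeries K) (h : ∀ m, x.coeff m ∈ A) :
    LaurentSeries A where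
  coeff m := ⟨x.coeff m, h m⟩
  isPWO_support' := by
    have hs : Function.support (fun m => (⟨x.coeff m, h m⟩ : A)) = x.support := by
      ext m
      simp only [Function.mem_support, HahnSeries.mem_support, ne_eq]
      rw [not_iff_not]
      constructor
      · intro h0
        exact congrArg Subtype.val h0
      · intro h0
        exact Subtype.ext h0
    rw [hs]
    exact x.isPWO_support

@[simp]
theorem liftA_coeff (A : ValuationSubring K) (x : LaurentSeries K) (h : ∀ m, x.coeff m ∈ A)
    (m : ℤ) : ((liftA A x h).coeff m : K) = x.coeff m := rfl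

theorem coeffMap_subtype_liftA (A : ValuationSubring K) (x : LaurentSeries K)
    (h : ∀ m, x.coeff m ∈ A) : coeffMap A.subtype (liftA A x h) = x := by
  ext m
  rw [coeffMap_coeff]
  rfl

theorem coeffMap_subtype_coeff_mem (A : ValuationSubring K) (y : LaurentSeries A) (m : ℤ) :
    (coeffMap A.subtype y).coeff m ∈ A := by
  rw [coeffMap_coeff]
  exact (y.coeff m).2

variable [Algebra ℚ K] [Algebra.IsAlgebraic ℚ K]
  (A : ValuationSubring K) {q : ℕ} (hq : q.Prime) (hA : A.LiesOverPrime q)

/-- The coefficients of `x` have valuation bounded below. -/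
def Bdd (x : LaurentSeries K) : Prop :=
  ∃ B : ℚ, ∀ m, (qvalOfSubring A hq hA).GE B (x.coeff m)

omit [Algebra ℚ K] [Algebra.IsAlgebraic ℚ K] in
theorem exists_coeff_ne_zero {x : LaurentSeries K} (hx : x ≠ 0) : ∃ m, x.coeff m ≠ 0 := by
  by_contra h
  push Not at h
  exact hx (HahnSeries.ext (funext h))

/-- For a nonzero bounded series with coefficients in a finite-dimensional field, the minimum of
the valuations of the coefficients is attained. -/
theorem exists_min_coeff (E : IntermediateField ℚ K) [FiniteDimensional ℚ E]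
    (x : LaurentSeries K) (hx : x ≠ 0) (hE : ∀ m, x.coeff m ∈ E) (hB : Bdd A hq hA x) :
    ∃ m₀, x.coeff m₀ ≠ 0 ∧ ∀ m, x.coeff m ≠ 0 →
      (qvalOfSubring A hq hA).v (x.coeff m₀) ≤ (qvalOfSubring A hq hA).v (x.coeff m) := by
  set ν := qvalOfSubring A hq hA with hν
  obtain ⟨B, hB⟩ := hB
  set N : ℕ := (Module.finrank ℚ E).factorial with hN
  have hNpos : (0 : ℚ) < (N : ℚ) := by
    have : 0 < N := Nat.factorial_pos _
    exact_mod_cast this
  let P : ℤ → Prop := fun k => ∃ m, x.coeff m ≠ 0 ∧ (N : ℚ) * ν.v (x.coeff m) = k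
  have hbdd : ∃ b : ℤ, ∀ z : ℤ, P z → b ≤ z := by
    refine ⟨⌊(N : ℚ) * B⌋, ?_⟩
    rintro z ⟨m, hm, hz⟩
    have h1 : B ≤ ν.v (x.coeff m) := (hB m).le hm
    have h2 : (N : ℚ) * B ≤ z := by
      rw [← hz]
      exact mul_le_mul_of_nonneg_left h1 hNpos.le
    have h3 : ((⌊(N : ℚ) * B⌋ : ℤ) : ℚ) ≤ (z : ℚ) := (Int.floor_le _).trans h2
    exact_mod_cast h3
  have hinh : ∃ z : ℤ, P z := by
    obtain ⟨m, hm⟩ := exists_coeff_ne_zero hx
    obtain ⟨k, hk⟩ := exists_factorial_mul_eq_int A hq hA E (hE m) hm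
    exact ⟨k, m, hm, hk⟩
  obtain ⟨lb, ⟨m₀, hm₀, hlb⟩, hleast⟩ := Int.exists_least_of_bdd hbdd hinh
  refine ⟨m₀, hm₀, fun m hm => ?_⟩
  obtain ⟨k, hk⟩ := exists_factorial_mul_eq_int A hq hA E (hE m) hm
  have h1 : lb ≤ k := hleast k ⟨m, hm, hk⟩
  have h2 : (N : ℚ) * ν.v (x.coeff m₀) ≤ (N : ℚ) * ν.v (x.coeff m) := by
    rw [hlb, hk]
    exact_mod_cast h1
  exact le_of_mul_le_mul_left h2 hNpos

/-- Normalisation: a nonzero bounded series with coefficients in a finite-dimensional field is,
up to a nonzero constant, the image of a series over `A` one of whose coefficients is `1`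
(so its reduction modulo the maximal ideal is nonzero). -/
theorem exists_normalized (E : IntermediateField ℚ K) [FiniteDimensional ℚ E]
    (x : LaurentSeries K) (hx : x ≠ 0) (hE : ∀ m, x.coeff m ∈ E) (hB : Bdd A hq hA x) :
    ∃ c : K, c ≠ 0 ∧ ∃ y : LaurentSeries A,
      coeffMap A.subtype y = HahnSeries.C c * x ∧ ∃ m, y.coeff m = 1 := by
  set ν := qvalOfSubring A hq hA with hν
  obtain ⟨m₀, hm₀, hmin⟩ := exists_min_coeff A hq hA E x hx hE hB
  have hc : (x.coeff m₀)⁻¹ ≠ 0 := inv_ne_zero hm₀
  have hcoeff : ∀ m, (HahnSeries.C (x.coeff m₀)⁻¹ * x).coeff m = (x.coeff m₀)⁻¹ * x.coeff m := by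
    intro m
    rw [HahnSeries.C_mul_eq_smul, HahnSeries.coeff_smul, smul_eq_mul]
  have hmem : ∀ m, (HahnSeries.C (x.coeff m₀)⁻¹ * x).coeff m ∈ A := by
    intro m
    rw [hcoeff]
    by_cases hm : x.coeff m = 0
    · rw [hm, mul_zero]
      exact A.zero_mem
    · rw [← qvalOfSubring_nonneg_iff A hq hA (mul_ne_zero hc hm), ← hν, ν.map_mul hc hm,
        ν.map_inv hm₀]
      have := hmin m hm
      linarith
  refine ⟨(x.coeff m₀)⁻¹, hc, liftA A _ hmem, coeffMap_subtype_liftA A _ hmem, m₀, ?_⟩
  apply Subtype.ext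
  rw [liftA_coeff, hcoeff, inv_mul_cancel₀ hm₀]
  rfl

end Fermat.Agent.GJ.AuxL.GaussNorm
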