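import Mathlib
import Fermat.Prelude.Def_ModularCurve_LaurentCoeff
import Fermat.Prelude.Def_ModularCurve_X0
import Fermat.Prelude.Def_ModularCurve_X0ModL
import Fermat.Agent.GJ.AuxL.GaussAttain

/-!
# GATE-J / J1-AUX, AUX-GAUSS(a), file 3 (helper91): every modular function is a quotient of two
`A`-integral `q`-expansions with nonzero reduction

`F := laurentBaseChange K (modularFunctionFieldFull N)`.

* `FinCoeff` : all coefficients in ONE finite-dimensional subfield; closed under the field
  operations (`finCoeff_of_mem`);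
* `Bdd` is closed under the ring operations, and series with integer coefficients are bounded;
* `exists_bdd_fraction` : every `x ∈ F` is `r / s` with `r, s ∈ F` bounded, `s ≠ 0`;
* `exists_gauss_fraction` : every `x ≠ 0` in `F` satisfies `C c * x * b = a` with `c ≠ 0` and
  `a, b ∈ F ∩ A((q))` each having a coefficient equal to `1`.
-/

set_option autoImplicit false

noncomputable section

namespace Fermat.Agent.GJ.AuxL.GaussNorm

open Fermat.Agent.S05 Fermat.Agent.S05.RankOne ModularCurve IntermediateField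

variable {K : Type*} [Field K] [Algebra ℚ K]

/-! ### Coefficients in one number field -/

/-- All coefficients of `x` lie in one finite-dimensional subextension of `K / ℚ`. -/
def FinCoeff (x : LaurentSeries K) : Prop :=
  ∃ E : IntermediateField ℚ K, FiniteDimensional ℚ E ∧ ∀ m, x.coeff m ∈ E

/-- A Laurent series with coefficients in the intermediate field `E`, as a series over `E`. -/
def liftE (E : IntermediateField ℚ K) (x : LaurentSeries K) (h : ∀ m, x.coeff m ∈ E) :
    LaurentSeries E where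
  coeff m := ⟨x.coeff m, h m⟩
  isPWO_support' := by
    have hs : Function.support (fun m => (⟨x.coeff m, h m⟩ : E)) = x.support := by
      ext m
      simp only [Function.mem_support, HahnSeries.mem_support, ne_eq]
      rw [not_iff_not]
      constructor
      · intro h0
        exact congrArg Subtype.val h0
      · intro h0
        exact Subtype.ext h0
    rw [hs]
    exact x.isPWO_support

theorem coeffMap_liftE (E : IntermediateField ℚ K) (x : LaurentSeries K)
    (h : ∀ m, x.coeff m ∈ E) : coeffMap (algebraMap E K) (liftE E x h) = x := by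
  ext m
  rw [coeffMap_coeff]
  rfl

theorem FinCoeff.zero : FinCoeff (0 : LaurentSeries K) :=
  ⟨⊥, inferInstance, fun m => by simp⟩

theorem FinCoeff.single {c : K} (hc : IsIntegral ℚ c) (a : ℤ) :
    FinCoeff (HahnSeries.single a c : LaurentSeries K) := by
  refine ⟨ℚ⟮c⟯, IntermediateField.adjoin.finiteDimensional hc, fun m => ?_⟩
  rw [HahnSeries.coeff_single]
  split_ifs
  · exact mem_adjoin_simple_self ℚ c
  · exact zero_mem _

theorem FinCoeff.one : FinCoeff (1 : LaurentSeries K) := by
  have h : (1 : LaurentSeries K) = HahnSeries.single 0 1 := rfl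
  rw [h]
  exact FinCoeff.single isIntegral_one 0

theorem FinCoeff.coeffEmb (z : LaurentSeries ℚ) : FinCoeff (coeffEmb K z) :=
  ⟨⊥, inferInstance, fun m => by
    rw [coeffEmb_coeff]
    exact (⊥ : IntermediateField ℚ K).algebraMap_mem _⟩

theorem FinCoeff.add {x y : LaurentSeries K} (hx : FinCoeff x) (hy : FinCoeff y) :
    FinCoeff (x + y) := by
  obtain ⟨E₁, h₁, hx⟩ := hx
  obtain ⟨E₂, h₂, hy⟩ := hy
  refine ⟨E₁ ⊔ E₂, inferInstance, fun m => ?_⟩
  rw [HahnSeries.coeff_add]
  exact add_mem ((le_sup_left : E₁ ≤ E₁ ⊔ E₂) (hx m)) ((le_sup_right : E₂ ≤ E₁ ⊔ E₂) (hy m))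

theorem FinCoeff.neg {x : LaurentSeries K} (hx : FinCoeff x) : FinCoeff (-x) := by
  obtain ⟨E, h, hx⟩ := hx
  refine ⟨E, h, fun m => ?_⟩
  rw [HahnSeries.coeff_neg]
  exact neg_mem (hx m)

theorem FinCoeff.mul {x y : LaurentSeries K} (hx : FinCoeff x) (hy : FinCoeff y) :
    FinCoeff (x * y) := by
  obtain ⟨E₁, h₁, hx⟩ := hx
  obtain ⟨E₂, h₂, hy⟩ := hy
  refine ⟨E₁ ⊔ E₂, inferInstance, fun m => ?_⟩
  rw [HahnSeries.coeff_mul]
  refine sum_mem fun ij _ => mul_mem ?_ ?_
  · exact (le_sup_left : E₁ ≤ E₁ ⊔ E₂) (hx _)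
  · exact (le_sup_right : E₂ ≤ E₁ ⊔ E₂) (hy _)

theorem FinCoeff.inv {x : LaurentSeries K} (hx : FinCoeff x) : FinCoeff x⁻¹ := by
  obtain ⟨E, h, hx⟩ := hx
  refine ⟨E, h, fun m => ?_⟩
  have h1 : x⁻¹ = coeffMap (algebraMap E K) (liftE E x hx)⁻¹ := by
    rw [map_inv₀, coeffMap_liftE]
  rw [h1, coeffMap_coeff]
  exact (((liftE E x hx)⁻¹).coeff m).2

variable [Algebra.IsAlgebraic ℚ K]

/-- Every element of a base-changed field of Laurent series has its coefficients in one number
field. -/
theorem finCoeff_of_mem (F₀ : IntermediateField ℚ (LaurentSeries ℚ)) {x : LaurentSeries K}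
    (hx : x ∈ laurentBaseChange K F₀) : FinCoeff x := by
  rw [mem_laurentBaseChange_iff] at hx
  induction hx using Subfield.closure_induction with
  | mem y hy =>
      rcases hy with ⟨a, rfl⟩ | ⟨z, _, rfl⟩
      · rw [algebraMap_laurentSeries_eq_single]
        exact FinCoeff.single (Algebra.IsAlgebraic.isAlgebraic a).isIntegral 0
      · exact FinCoeff.coeffEmb z
  | one => exact FinCoeff.one
  | add x y _ _ hx hy => exact hx.add hy
  | neg x _ hx => exact hx.neg
  | inv x _ hx => exact hx.inv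
  | mul x y _ _ hx hy => exact hx.mul hy

/-! ### Bounded series form a ring -/

variable (A : ValuationSubring K) {q : ℕ} (hq : q.Prime) (hA : A.LiesOverPrime q)

theorem GE_sum {ι : Type*} (s : Finset ι) (f : ι → K) (B : ℚ)
    (h : ∀ i ∈ s, (qvalOfSubring A hq hA).GE B (f i)) :
    (qvalOfSubring A hq hA).GE B (∑ i ∈ s, f i) := by
  classical
  induction s using Finset.induction_on with
  | empty => simpa using QVal.GE.zero B
  | insert i s hi ih =>
    rw [Finset.sum_insert hi]
    exact (h i (Finset.mem_insert_self i s)).add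
      (ih fun j hj => h j (Finset.mem_insert_of_mem hj))

theorem Bdd.zero : Bdd A hq hA (0 : LaurentSeries K) :=
  ⟨0, fun m => by simpa using QVal.GE.zero 0⟩

theorem Bdd.single (c : K) (a : ℤ) : Bdd A hq hA (HahnSeries.single a c : LaurentSeries K) := by
  by_cases hc : c = 0
  · rw [hc, map_zero]
    exact Bdd.zero A hq hA
  · refine ⟨(qvalOfSubring A hq hA).v c, fun m => ?_⟩
    rw [HahnSeries.coeff_single]
    split_ifs
    · exact QVal.GE.of_le le_rfl
    · exact QVal.GE.zero _

theorem Bdd.one : Bdd A hq hA (1 : LaurentSeries K) := by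
  have h : (1 : LaurentSeries K) = HahnSeries.single 0 1 := rfl
  rw [h]
  exact Bdd.single A hq hA 1 0

theorem Bdd.add {x y : LaurentSeries K} (hx : Bdd A hq hA x) (hy : Bdd A hq hA y) :
    Bdd A hq hA (x + y) := by
  obtain ⟨B₁, hx⟩ := hx
  obtain ⟨B₂, hy⟩ := hy
  refine ⟨min B₁ B₂, fun m => ?_⟩
  rw [HahnSeries.coeff_add]
  exact ((hx m).mono (min_le_left _ _)).add ((hy m).mono (min_le_right _ _))

theorem Bdd.neg {x : LaurentSeries K} (hx : Bdd A hq hA x) : Bdd A hq hA (-x) := by
  obtain ⟨B, hx⟩ := hx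
  refine ⟨B, fun m => ?_⟩
  rw [HahnSeries.coeff_neg]
  exact (hx m).neg

theorem Bdd.mul {x y : LaurentSeries K} (hx : Bdd A hq hA x) (hy : Bdd A hq hA y) :
    Bdd A hq hA (x * y) := by
  obtain ⟨B₁, hx⟩ := hx
  obtain ⟨B₂, hy⟩ := hy
  refine ⟨B₁ + B₂, fun m => ?_⟩
  rw [HahnSeries.coeff_mul]
  exact GE_sum A hq hA _ _ _ fun ij _ => (hx _).mul (hy _)

/-- A series all of whose coefficients are (images of) integers is bounded. -/
theorem Bdd.of_intCoeff {x : LaurentSeries K} (h : ∀ m, ∃ n : ℤ, x.coeff m = (n : K)) :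
    Bdd A hq hA x := by
  refine ⟨0, fun m => ?_⟩
  obtain ⟨n, hn⟩ := h m
  by_cases h0 : x.coeff m = 0
  · exact Or.inl h0
  · refine Or.inr ?_
    rw [qvalOfSubring_nonneg_iff A hq hA h0, hn]
    exact intCast_mem_valuationSubring A n

/-! ### Quotients of bounded elements -/

variable (N : ℕ)

/-- `x` is a quotient of two bounded elements of the modular function field. -/
def FracBdd (x : LaurentSeries K) : Prop :=
  ∃ r s : LaurentSeries K, r ∈ laurentBaseChange K (modularFunctionFieldFull N) ∧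
    s ∈ laurentBaseChange K (modularFunctionFieldFull N) ∧ s ≠ 0 ∧
    Bdd A hq hA r ∧ Bdd A hq hA s ∧ x * s = r

theorem FracBdd.of_bdd {x : LaurentSeries K}
    (hx : x ∈ laurentBaseChange K (modularFunctionFieldFull N)) (hb : Bdd A hq hA x) :
    FracBdd A hq hA N x :=
  ⟨x, 1, hx, one_mem _, one_ne_zero, hb, Bdd.one A hq hA, mul_one x⟩

theorem FracBdd.add {x y : LaurentSeries K} (hx : FracBdd A hq hA N x)
    (hy : FracBdd A hq hA N y) : FracBdd A hq hA N (x + y) := by
  obtain ⟨r₁, s₁, hr₁, hs₁, hs₁0, br₁, bs₁, e₁⟩ := hx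
  obtain ⟨r₂, s₂, hr₂, hs₂, hs₂0, br₂, bs₂, e₂⟩ := hy
  refine ⟨r₁ * s₂ + r₂ * s₁, s₁ * s₂, add_mem (mul_mem hr₁ hs₂) (mul_mem hr₂ hs₁),
    mul_mem hs₁ hs₂, mul_ne_zero hs₁0 hs₂0, (br₁.mul A hq hA bs₂).add A hq hA (br₂.mul A hq hA bs₁),
    bs₁.mul A hq hA bs₂, ?_⟩
  rw [← e₁, ← e₂]
  ring

theorem FracBdd.neg {x : LaurentSeries K} (hx : FracBdd A hq hA N x) :
    FracBdd A hq hA N (-x) := by
  obtain ⟨r, s, hr, hs, hs0, br, bs, e⟩ := hx
  exact ⟨-r, s, neg_mem hr, hs, hs0, br.neg A hq hA, bs, by rw [← e]; ring⟩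

theorem FracBdd.mul {x y : LaurentSeries K} (hx : FracBdd A hq hA N x)
    (hy : FracBdd A hq hA N y) : FracBdd A hq hA N (x * y) := by
  obtain ⟨r₁, s₁, hr₁, hs₁, hs₁0, br₁, bs₁, e₁⟩ := hx
  obtain ⟨r₂, s₂, hr₂, hs₂, hs₂0, br₂, bs₂, e₂⟩ := hy
  refine ⟨r₁ * r₂, s₁ * s₂, mul_mem hr₁ hr₂, mul_mem hs₁ hs₂, mul_ne_zero hs₁0 hs₂0,
    br₁.mul A hq hA br₂, bs₁.mul A hq hA bs₂, ?_⟩
  rw [← e₁, ← e₂]
  ring

theorem FracBdd.inv {x : LaurentSeries K} (hx : FracBdd A hq hA N x) :
    FracBdd A hq hA N x⁻¹ := by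
  obtain ⟨r, s, hr, hs, hs0, br, bs, e⟩ := hx
  by_cases hr0 : r = 0
  · have hx0 : x = 0 := by
      rw [hr0] at e
      exact (mul_eq_zero.1 e).resolve_right hs0
    rw [hx0, inv_zero]
    exact ⟨0, 1, zero_mem _, one_mem _, one_ne_zero, Bdd.zero A hq hA, Bdd.one A hq hA, by simp⟩
  · have hx0 : x ≠ 0 := by
      rintro rfl
      rw [zero_mul] at e
      exact hr0 e.symm
    refine ⟨s, r, hs, hr, hr0, bs, br, ?_⟩
    rw [← e]
    field_simp

theorem bdd_coeffEmb_qExpand_jq (d : ℕ) [NeZero d] :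
    Bdd A hq hA (coeffEmb K (qExpand ℚ d jq)) := by
  refine Bdd.of_intCoeff A hq hA fun m => ?_
  rw [coeffEmb_coeff]
  by_cases hm : (d : ℤ) ∣ m
  · obtain ⟨k, rfl⟩ := hm
    rw [qExpand_coeff_mul, ← jqModC_rat, coeff_jqModC_eq_intCast]
    exact ⟨(jqModC ℤ).coeff k, by simp⟩
  · rw [qExpand_coeff_of_not_dvd d jq hm]
    exact ⟨0, by simp⟩

variable [NeZero N]

/-- Every element of the modular function field is a quotient of two bounded elements. -/
theorem exists_bdd_fraction {x : LaurentSeries K}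
    (hx : x ∈ laurentBaseChange K (modularFunctionFieldFull N)) : FracBdd A hq hA N x := by
  rw [mem_laurentBaseChange_iff] at hx
  induction hx using Subfield.closure_induction with
  | mem y hy =>
      rcases hy with ⟨a, rfl⟩ | ⟨z, hz, rfl⟩
      · refine FracBdd.of_bdd A hq hA N ((laurentBaseChange K _).algebraMap_mem a) ?_
        rw [algebraMap_laurentSeries_eq_single]
        exact Bdd.single A hq hA a 0
      · -- inner induction over `modularFunctionFieldFull N = ℚ(j(q^d) : d ∣ N)`
        have hz' : z ∈ Subfield.closure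
            (Set.range (algebraMap ℚ (LaurentSeries ℚ)) ∪ divisorExpansions N) := hz
        clear hz
        induction hz' using Subfield.closure_induction with
        | mem w hw =>
            rcases hw with ⟨c, rfl⟩ | ⟨d, hd, hdN, rfl⟩
            · have h1 : coeffEmb K (algebraMap ℚ (LaurentSeries ℚ) c)
                  = HahnSeries.single 0 (algebraMap ℚ K c) := by
                rw [algebraMap_laurentSeries_eq_single, coeffEmb, coeffMap_single]
              refine FracBdd.of_bdd A hq hA N ?_ ?_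
              · exact coeffEmb_mem_laurentBaseChange K
                  ((modularFunctionFieldFull N).algebraMap_mem c)
              · rw [h1]
                exact Bdd.single A hq hA _ 0
            · have := hd
              refine FracBdd.of_bdd A hq hA N ?_ (bdd_coeffEmb_qExpand_jq A hq hA d)
              exact coeffEmb_mem_laurentBaseChange K (jqd_mem_full N hdN)
        | one =>
            rw [map_one]
            exact FracBdd.of_bdd A hq hA N (one_mem _) (Bdd.one A hq hA)
        | add x y _ _ hx hy => rw [map_add]; exact hx.add A hq hA N hy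
        | neg x _ hx => rw [map_neg]; exact hx.neg A hq hA N
        | inv x _ hx => rw [map_inv₀]; exact hx.inv A hq hA N
        | mul x y _ _ hx hy => rw [map_mul]; exact hx.mul A hq hA N hy
  | one => exact FracBdd.of_bdd A hq hA N (one_mem _) (Bdd.one A hq hA)
  | add x y _ _ hx hy => exact hx.add A hq hA N hy
  | neg x _ hx => exact hx.neg A hq hA N
  | inv x _ hx => exact hx.inv A hq hA N
  | mul x y _ _ hx hy => exact hx.mul A hq hA N hy

include hq hA in
/-- **Gauss normalisation of modular functions.**  Every nonzero `x` of the modular function field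
`F ⊂ K((q))` is, up to a nonzero constant `c`, a quotient `a / b` of two elements of `F` with
`A`-integral `q`-expansions, each having a coefficient equal to `1` (so nonzero reduction). -/
theorem exists_gauss_fraction {x : LaurentSeries K}
    (hx : x ∈ laurentBaseChange K (modularFunctionFieldFull N)) (hx0 : x ≠ 0) :
    ∃ c : K, c ≠ 0 ∧ ∃ a b : LaurentSeries A,
      coeffMap A.subtype a ∈ laurentBaseChange K (modularFunctionFieldFull N) ∧
      coeffMap A.subtype b ∈ laurentBaseChange K (modularFunctionFieldFull N) ∧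
      (∃ m, a.coeff m = 1) ∧ (∃ m, b.coeff m = 1) ∧
      HahnSeries.C c * x * coeffMap A.subtype b = coeffMap A.subtype a := by
  obtain ⟨r, s, hr, hs, hs0, br, bs, e⟩ := exists_bdd_fraction A hq hA N hx
  have hr0 : r ≠ 0 := by
    rw [← e]
    exact mul_ne_zero hx0 hs0
  obtain ⟨E₁, hE₁, hrE⟩ := finCoeff_of_mem _ hr
  obtain ⟨E₂, hE₂, hsE⟩ := finCoeff_of_mem _ hs
  obtain ⟨c₁, hc₁, a, ha, ha1⟩ := exists_normalized A hq hA E₁ r hr0 hrE br
  obtain ⟨c₂, hc₂, b, hb, hb1⟩ := exists_normalized A hq hA E₂ s hs0 hsE bs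
  have hC : ∀ c : K, HahnSeries.C c ∈ laurentBaseChange K (modularFunctionFieldFull N) := by
    intro c
    have : (HahnSeries.C c : LaurentSeries K) = algebraMap K (LaurentSeries K) c := by
      rw [algebraMap_laurentSeries_eq_single, HahnSeries.C_apply]
    rw [this]
    exact (laurentBaseChange K _).algebraMap_mem c
  refine ⟨c₁ / c₂, div_ne_zero hc₁ hc₂, a, b, ?_, ?_, ha1, hb1, ?_⟩
  · rw [ha]
    exact mul_mem (hC c₁) hr
  · rw [hb]
    exact mul_mem (hC c₂) hs
  · rw [ha, hb, ← e]
    have h1 : (HahnSeries.C (c₁ / c₂) : LaurentSeries K) * HahnSeries.C c₂ = HahnSeries.C c₁ := by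
      rw [← map_mul, div_mul_cancel₀ c₁ hc₂]
    calc HahnSeries.C (c₁ / c₂) * x * (HahnSeries.C c₂ * s)
        = (HahnSeries.C (c₁ / c₂) * HahnSeries.C c₂) * (x * s) := by ring
      _ = HahnSeries.C c₁ * (x * s) := by rw [h1]

end Fermat.Agent.GJ.AuxL.GaussNorm
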